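import Fermat.Agent.S33.SM.Bridge.GMain
import Fermat.Agent.S33.SM.Bridge.SMain
import Fermat.Agent.S33.SM.Bridge.Res
import Fermat.Agent.LP.Nod.BrSmooth

/-!
# S33-SM: final exports, theorems (G) and (S) of the S33 blueprint, unconditionally
-/

set_option autoImplicit false

namespace Fermat.Agent.S33.SM

open Fermat.Agent.GR ModularCurve

/-- (G). -/
theorem goodOrd_main {p M0 : ℕ} [NeZero p] (hp : p.Prime) (hp2 : p ≠ 2) (hM0 : M0 ≠ 0)
    (hpM : ¬ p ∣ M0) {A : ValuationSubring Qbar} (hA : A.LiesOverPrime p) :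
    S33.GoodOrd p M0 A := by
  haveI : Fact p.Prime := ⟨hp⟩
  haveI : NeZero M0 := ⟨hM0⟩
  exact goodOrd hp2 hM0 hpM hA (LP.smoothCruxP p M0 hp hp2 hpM A hA) (resAll hM0 hpM hA)

/-- (S). -/
theorem ssCrux_main {p M0 : ℕ} [NeZero p] (hp : p.Prime) (hp2 : p ≠ 2) (hM0 : M0 ≠ 0)
    (hpM : ¬ p ∣ M0) {A : ValuationSubring Qbar} (hA : A.LiesOverPrime p) :
    S33.SSCrux p M0 A := by
  haveI : Fact p.Prime := ⟨hp⟩
  haveI : NeZero M0 := ⟨hM0⟩
  exact ssCrux hp2 hM0 hpM hA (LP.smoothCruxP p M0 hp hp2 hpM A hA) (resAll hM0 hpM hA)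

end Fermat.Agent.S33.SM
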