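import Fermat.Agent.S33.SM.GLink

/-!
# S33-SM, abstract layer: theorem (G)

A family of classes `u z` of level `M0`, of depth `≥ 1`, such that `u z / Φ (u (s z))` is deep at
level `N` for all `z`, reaches the top depth `p e1`.

Paper proof (one step `i → i + 1`, `0 < i < p e1`).  Choose representatives
`v z = c z₁ ^ p u z = 1 + ϖ ^ i g z` (`exists_rep_of_dep`); they are still linked
(`Linked.of_mul`).  `Linked.leading`: `c w ^ p (1 + ϖ ^ i inc (g z)) ≡ 1 + ϖ ^ i Φ (g (s z))`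
modulo `ϖ ^ (i + 1)`.
* `p ∤ i`: `leading_unique` gives `Φ (g (s z)) - inc (g z) ≡ r`; axiom `nu` for `Y = range g` gives
  `g z ≡ r'`; `dep_succ_of_const`.
* `i = p a`: `leading_unique_pow` gives `Φ (g (s z)) - inc (g z) ≡ r + y ^ p`;
  `Φ g' ≡ inc (Fr⁻¹ g') ^ p`; so `inc (g z) ≡ (inc (Fr⁻¹ g') - y) ^ p - r`; `dense` gives
  `inc (Fr⁻¹ g') - y ≡ inc y0`; so `g z ≡ - r + y0 ^ p`; `dep_succ_of_pow`.
-/

set_option autoImplicit false

namespace Fermat.Agent.S33.SM.Ops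

open Fermat.Agent.LP.Dep

variable {R L F0 F : Type*} [CommRing R] [IsDomain R] [IsDiscreteValuationRing R]
  [Field L] [Algebra R L] [IsFractionRing R L]
  [Field F0] [Algebra R F0] [Algebra L F0] [IsScalarTower R L F0]
  [Field F] [Algebra R F] [Algebra L F] [IsScalarTower R L F]
variable {ϖ : R} {𝒪0 : ValuationSubring F0} {𝒪 : ValuationSubring F} {p e1 : ℕ} {lam : R}
  (O : Ops L ϖ 𝒪0 𝒪 p)

/-- one step of (G), case `p ∤ i`. -/
theorem G_step_not_dvd (S0 : DepSetting ϖ 𝒪0 p e1 lam) (S : DepSetting ϖ 𝒪 p e1 lam) {i : ℕ}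
    (hi0 : 0 < i) (hi : i < p * e1) (hpi : ¬ p ∣ i) {ι : Type*} (s : ι → ι) (g : ι → F0)
    (hg : ∀ z, g z ∈ 𝒪0)
    (h : ∀ z, O.Linked e1 (1 + algebraMap R F0 ϖ ^ i * g z)
      (1 + algebraMap R F0 ϖ ^ i * g (s z))) (z : ι) :
    Dep L ϖ 𝒪0 p (i + 1) (1 + algebraMap R F0 ϖ ^ i * g z) := by
  have key : ∀ z, ∃ r : R, CongP ϖ 𝒪 1 (O.inc (g z)) (O.Φ (g (s z)) + algebraMap R F r) := by
    intro z
    obtain ⟨c, w, hc, hw, hcong⟩ := Linked.leading O S0 S hi0 hi.le (hg z) (hg (s z)) (h z)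
    obtain ⟨r, hr⟩ := leading_unique S hi0 hi hpi hc hw ((O.inc_mem _).2 (hg z))
      (O.Φ_mem _ (hg (s z))) hcong
    refine ⟨-r, ?_⟩
    unfold CongP at hr ⊢
    have e : (O.inc (g z) - (O.Φ (g (s z)) + algebraMap R F (-r))) / algebraMap R F ϖ ^ 1 =
        -((O.Φ (g (s z)) - O.inc (g z) - algebraMap R F r) / algebraMap R F ϖ ^ 1) := by
      rw [map_neg]
      ring
    rw [e]
    exact neg_mem hr
  obtain ⟨r, hr⟩ := O.nu (Set.range g) (by rintro _ ⟨z, rfl⟩; exact hg z)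
    (by
      rintro _ ⟨z, rfl⟩
      obtain ⟨r, hr⟩ := key z
      exact ⟨g (s z), ⟨s z, rfl⟩, r, hr⟩) (g z) ⟨z, rfl⟩
  refine dep_succ_of_const S0 hi0 r ?_
  have hϖ : algebraMap R F0 ϖ ≠ 0 := S0.gauss.ne_zero
  unfold CongP at hr ⊢
  have e : (1 + algebraMap R F0 ϖ ^ i * g z - (1 + algebraMap R F0 ϖ ^ i * algebraMap R F0 r)) /
      algebraMap R F0 ϖ ^ (i + 1) = (g z - algebraMap R F0 r) / algebraMap R F0 ϖ ^ 1 := by
    field_simp
    ring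
  rw [e]
  exact hr

end Fermat.Agent.S33.SM.Ops
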