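import Fermat.Agent.S33.SM.GDvd
import Fermat.Agent.S33.SM.GNot

/-!
# S33-SM, abstract layer: theorem (G)

A family of classes `u z` of level `M0`, of depth `≥ 1`, such that `u z / Φ (u (s z))` is deep at
level `N` for all `z`, reaches the top depth `p e1`.

Paper proof (one step `i → i + 1`, `0 < i < p e1`).  Choose representatives
`v z = c z₁ ^ p u z = 1 + ϖ ^ i g z` (`exists_rep_of_dep`); they are still linked
(`Linked.of_mul`).  `Linked.leading`: `c w ^ p (1 + ϖ ^ i inc (g z)) ≡ 1 + ϖ ^ i Φ (g (s z))`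
modulo `ϖ ^ (i + 1)`.
* `p ∤ i`: `leading_unique` gives `Φ (g (s z)) - inc (g z) ≡ r`; axiom `nu` for `Y = range g` gives
  `g z ≡ r'`; `dep_succ_of_const`.
* `i = p a`: `leading_unique_pow` gives `Φ (g (s z)) - inc (g z) ≡ r + y ^ p`;
  `Φ g' ≡ inc (Fr⁻¹ g') ^ p`; so `inc (g z) ≡ (inc (Fr⁻¹ g') - y) ^ p - r`; `dense` gives
  `inc (Fr⁻¹ g') - y ≡ inc y0`; so `g z ≡ - r + y0 ^ p`; `dep_succ_of_pow`.
-/

set_option autoImplicit false

namespace Fermat.Agent.S33.SM.Ops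

open Fermat.Agent.LP.Dep

variable {R L F0 F : Type*} [CommRing R] [IsDomain R] [IsDiscreteValuationRing R]
  [Field L] [Algebra R L] [IsFractionRing R L]
  [Field F0] [Algebra R F0] [Algebra L F0] [IsScalarTower R L F0]
  [Field F] [Algebra R F] [Algebra L F] [IsScalarTower R L F]
variable {ϖ : R} {𝒪0 : ValuationSubring F0} {𝒪 : ValuationSubring F} {p e1 : ℕ} {lam : R}
  (O : Ops L ϖ 𝒪0 𝒪 p)

/-- one step of (G). -/
theorem G_step (S0 : DepSetting ϖ 𝒪0 p e1 lam) (S : DepSetting ϖ 𝒪 p e1 lam) (hp2 : p ≠ 2)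
    {i : ℕ} (hi0 : 0 < i) (hi : i < p * e1) {ι : Type*} (s : ι → ι) (u : ι → F0)
    (hlink : ∀ z, O.Linked e1 (u z) (u (s z))) (hdep : ∀ z, Dep L ϖ 𝒪0 p i (u z)) (z : ι) :
    Dep L ϖ 𝒪0 p (i + 1) (u z) := by
  choose c y g hc hy hg hrep using fun z => exists_rep_of_dep S0 (hdep z)
  have hlink' : ∀ z, O.Linked e1 (1 + algebraMap R F0 ϖ ^ i * g z)
      (1 + algebraMap R F0 ϖ ^ i * g (s z)) := by
    intro z
    rw [← hrep z, ← hrep (s z)]
    exact (hlink z).of_mul O (hc z) (hy z) (hc (s z)) (hy (s z))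
  rw [← dep_mul_iff (i + 1) (hc z) (hy z) (u z), hrep z]
  by_cases hpi : p ∣ i
  · obtain ⟨a, rfl⟩ := hpi
    have ha0 : 0 < a := Nat.pos_of_mul_pos_left hi0
    have ha : a < e1 := Nat.lt_of_mul_lt_mul_left hi
    exact O.G_step_dvd S0 S hp2 ha0 ha (hg z) (hg (s z)) (hlink' z)
  · exact O.G_step_not_dvd S0 S hi0 hi hpi s g hg hlink' z

/-- (G), abstract form. -/
theorem G_abs (S0 : DepSetting ϖ 𝒪0 p e1 lam) (S : DepSetting ϖ 𝒪 p e1 lam) (hp2 : p ≠ 2)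
    {ι : Type*} (s : ι → ι) (u : ι → F0)
    (hlink : ∀ z, O.Linked e1 (u z) (u (s z))) (hdep : ∀ z, Dep L ϖ 𝒪0 p 1 (u z)) (z : ι) :
    Dep L ϖ 𝒪0 p (p * e1) (u z) := by
  have key : ∀ i : ℕ, 1 ≤ i → i ≤ p * e1 → ∀ z, Dep L ϖ 𝒪0 p i (u z) := by
    intro i hi1
    induction i, hi1 using Nat.le_induction with
    | base => exact fun _ => hdep
    | succ i hi1 ih =>
      intro hi z
      exact O.G_step S0 S hp2 (by omega) (by omega) s u hlink (ih (by omega)) z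
  exact key (p * e1) (Nat.mul_pos S0.prime.pos S0.e1_pos) le_rfl z

end Fermat.Agent.S33.SM.Ops
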