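import Fermat.Agent.S33.SM.SLead

/-!
# S33-SM, abstract layer: theorem (S)

Over a base with `e1 = 1` a nonzero `u ∈ F0` with `T_p u = Φ u * U u ∈ L^× F^p` is deep.

Paper proof.
* Step 0 (`Killed.dep_one`).  `u = ϖ ^ n u₁`, `u₁` a unit (`exists_zpow_mul_unit`); `u₁` is still
  killed.  `Φ u₁ * U u₁ = c z ^ p` is a unit, so `c`, `z` are units wlog (`exists_unit_rep`).
  `inc (Fr u₁) ≡ U u₁ = c z ^ p / Φ u₁ ≡ c (z / inc (Fr⁻¹ u₁)) ^ p ≡ c (inc z0) ^ p`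
  (`U_Fr`, `Φ_congP_pow`, `dense_unit`), so `Fr u₁ ≡ c z0 ^ p`, `u₁ ≡ Fr⁻¹ c (Fr⁻¹ z0) ^ p`.
* Step `i`, `0 < i < p e1`, `p ∤ i` (`Killed.dep_succ`).  Representative `1 + ϖ ^ i g`;
  `U (1 + ϖ ^ i g) ≡ 1` modulo `ϖ ^ (i + 1)` (`U_small`), so
  `c z ^ p ≡ 1 + ϖ ^ i Φ g`; `leading_unique` (with `g := 0`) gives `Φ g ≡ r = Φ r`, so `g ≡ r`
  (`congP_of_Φ_congP`); `dep_succ_of_const`.
* Step `p e1` (`Killed.dep_top_succ`).  Representative `1 + lam ^ p g`; `leading_unique_top` gives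
  `Φ g ≡ r + y ^ p - y`, `y ≡ inc y0`; with `g' = Fr⁻¹ g`: `g' ^ p ≡ r + y0 ^ p - y0`, so
  `g' ≡ r + (y0 - g') ^ p - (y0 - g')`; apply `Fr`; `dep_succ_of_artinSchreier`.
-/

set_option autoImplicit false

namespace Fermat.Agent.S33.SM.Ops

open Fermat.Agent.LP.Dep

variable {R L F0 F : Type*} [CommRing R] [IsDomain R] [IsDiscreteValuationRing R]
  [Field L] [Algebra R L] [IsFractionRing R L]
  [Field F0] [Algebra R F0] [Algebra L F0] [IsScalarTower R L F0]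
  [Field F] [Algebra R F] [Algebra L F] [IsScalarTower R L F]
variable {ϖ : R} {𝒪0 : ValuationSubring F0} {𝒪 : ValuationSubring F} {p e1 : ℕ} {lam : R}
  (O : Ops L ϖ 𝒪0 𝒪 p)

/-- Step `i`, `p ∤ i`, `0 < i < p e1`. -/
theorem Killed.dep_succ (S0 : DepSetting ϖ 𝒪0 p e1 lam) (S : DepSetting ϖ 𝒪 p e1 lam) {i : ℕ}
    (hi0 : 0 < i) (hi : i < p * e1) (hpi : ¬ p ∣ i) {u : F0} (h : O.Killed u)
    (hdep : Dep L ϖ 𝒪0 p i u) : Dep L ϖ 𝒪0 p (i + 1) u := by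
  obtain ⟨c, z, g, hc, hz, hg, hu⟩ := exists_rep_of_dep S0 hdep
  have hk : O.Killed (1 + algebraMap R F0 ϖ ^ i * g) := by
    rw [← hu]
    exact Killed.of_mul O h hc hz
  obtain ⟨c', w, hc', hw, hcong⟩ := Killed.leading O S0 S hi0 hg hk
  obtain ⟨r, hr⟩ := leading_unique S hi0 hi hpi hc' hw (g := 0) (g' := O.Φ g) 𝒪.zero_mem
    (O.Φ_mem g hg) (by rwa [mul_zero, add_zero, mul_one])
  rw [sub_zero, ← O.Φ_R r] at hr
  have hgr : CongP ϖ 𝒪0 1 g (algebraMap R F0 r) := O.congP_of_Φ_congP S0 S hg (S0.base r) hr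
  rw [← dep_mul_iff (L := L) (ϖ := ϖ) (𝒪 := 𝒪0) (p := p) (i + 1) hc hz u, hu]
  refine dep_succ_of_const S0 hi0 r ?_
  have hP : algebraMap R F0 ϖ ≠ 0 := S0.gauss.ne_zero
  unfold CongP at hgr ⊢
  have e : (1 + algebraMap R F0 ϖ ^ i * g - (1 + algebraMap R F0 ϖ ^ i * algebraMap R F0 r)) /
      algebraMap R F0 ϖ ^ (i + 1) = (g - algebraMap R F0 r) / algebraMap R F0 ϖ ^ 1 := by
    rw [div_eq_div_iff (pow_ne_zero _ hP) (pow_ne_zero _ hP)]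
    ring
  rw [e]
  exact hgr

end Fermat.Agent.S33.SM.Ops
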