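import Fermat.Agent.S33.SM.SLead

/-!
# S33-SM, abstract layer: theorem (S)

Over a base with `e1 = 1` a nonzero `u ∈ F0` with `T_p u = Φ u * U u ∈ L^× F^p` is deep.

Paper proof.
* Step 0 (`Killed.dep_one`).  `u = ϖ ^ n u₁`, `u₁` a unit (`exists_zpow_mul_unit`); `u₁` is still
  killed.  `Φ u₁ * U u₁ = c z ^ p` is a unit, so `c`, `z` are units wlog (`exists_unit_rep`).
  `inc (Fr u₁) ≡ U u₁ = c z ^ p / Φ u₁ ≡ c (z / inc (Fr⁻¹ u₁)) ^ p ≡ c (inc z0) ^ p`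
  (`U_Fr`, `Φ_congP_pow`, `dense_unit`), so `Fr u₁ ≡ c z0 ^ p`, `u₁ ≡ Fr⁻¹ c (Fr⁻¹ z0) ^ p`.
* Step `i`, `0 < i < p e1`, `p ∤ i` (`Killed.dep_succ`).  Representative `1 + ϖ ^ i g`;
  `U (1 + ϖ ^ i g) ≡ 1` modulo `ϖ ^ (i + 1)` (`U_small`), so
  `c z ^ p ≡ 1 + ϖ ^ i Φ g`; `leading_unique` (with `g := 0`) gives `Φ g ≡ r = Φ r`, so `g ≡ r`
  (`congP_of_Φ_congP`); `dep_succ_of_const`.
* Step `p e1` (`Killed.dep_top_succ`).  Representative `1 + lam ^ p g`; `leading_unique_top` gives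
  `Φ g ≡ r + y ^ p - y`, `y ≡ inc y0`; with `g' = Fr⁻¹ g`: `g' ^ p ≡ r + y0 ^ p - y0`, so
  `g' ≡ r + (y0 - g') ^ p - (y0 - g')`; apply `Fr`; `dep_succ_of_artinSchreier`.
-/

set_option autoImplicit false

namespace Fermat.Agent.S33.SM.Ops

open Fermat.Agent.LP.Dep

variable {R L F0 F : Type*} [CommRing R] [IsDomain R] [IsDiscreteValuationRing R]
  [Field L] [Algebra R L] [IsFractionRing R L]
  [Field F0] [Algebra R F0] [Algebra L F0] [IsScalarTower R L F0]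
  [Field F] [Algebra R F] [Algebra L F] [IsScalarTower R L F]
variable {ϖ : R} {𝒪0 : ValuationSubring F0} {𝒪 : ValuationSubring F} {p e1 : ℕ} {lam : R}
  (O : Ops L ϖ 𝒪0 𝒪 p)

/-- congruences can be subtracted. -/
theorem STop_sub {E : Type*} [Field E] [Algebra R E] {V : ValuationSubring E} {i : ℕ}
    {x y x' y' : E} (h : CongP ϖ V i x y) (h' : CongP ϖ V i x' y') :
    CongP ϖ V i (x - x') (y - y') := by
  unfold CongP at h h' ⊢
  have h2 : (x - x' - (y - y')) / algebraMap R E ϖ ^ i =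
      (x - y) / algebraMap R E ϖ ^ i - (x' - y') / algebraMap R E ϖ ^ i := by ring
  rw [h2]
  exact sub_mem h h'

/-- Step `p e1` (top depth). -/
theorem Killed.dep_top_succ (S0 : DepSetting ϖ 𝒪0 p e1 lam) (S : DepSetting ϖ 𝒪 p e1 lam)
    (hp2 : p ≠ 2) {u : F0} (h : O.Killed u) (hdep : Dep L ϖ 𝒪0 p (p * e1) u) :
    Dep L ϖ 𝒪0 p (p * e1 + 1) u := by
  have hpe : 0 < p * e1 := Nat.mul_pos S.prime.pos S.e1_pos
  obtain ⟨c, z, g, hc, hz, hg, hrep⟩ := exists_rep_of_dep (L := L) S0 hdep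
  have hK : O.Killed (1 + algebraMap R F0 ϖ ^ (p * e1) * g) := by
    rw [← hrep]
    exact Killed.of_mul O h hc hz
  obtain ⟨c', w, hc', hw, hlead⟩ := Killed.leading O S0 S hpe hg hK
  obtain ⟨ε, hε⟩ := S.lam_eq
  set g1 : F0 := algebraMap R F0 ((ε : R) ^ p) * g with hg1
  have hg1O : g1 ∈ 𝒪0 := 𝒪0.mul_mem _ _ (S0.base _) hg
  have hpow0 : algebraMap R F0 ϖ ^ (p * e1) * g = algebraMap R F0 lam ^ p * g1 := by
    rw [hg1, ← mul_assoc, ← map_pow, ← map_pow, ← map_mul, ← mul_pow, hε, ← pow_mul,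
      mul_comm e1 p]
  have hpow : algebraMap R F ϖ ^ (p * e1) * O.Φ g = algebraMap R F lam ^ p * O.Φ g1 := by
    rw [hg1, map_mul, O.Φ_R, ← mul_assoc, ← map_pow, ← map_pow, ← map_mul, ← mul_pow, hε,
      ← pow_mul, mul_comm e1 p]
  obtain ⟨r, y, hy, hry⟩ := leading_unique_top S hc' hw (g := 0) (g' := O.Φ g1) 𝒪.zero_mem
    (O.Φ_mem _ hg1O) (by rw [mul_zero, add_zero, mul_one, ← hpow]; exact hlead)
  rw [sub_zero] at hry
  obtain ⟨y0, hy0, hyy0⟩ := O.dense y hy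
  set g' : F0 := O.Fr.symm g1 with hg'
  have hg'O : g' ∈ 𝒪0 := (O.Fr_symm_mem g1).2 hg1O
  have h1 : CongP ϖ 𝒪 1 (O.inc g' ^ p) (algebraMap R F r + (y ^ p - y)) :=
    (O.Φ_congP_pow hg1O).symm.trans hry
  have h2 : CongP ϖ 𝒪 1 (algebraMap R F r + (y ^ p - y))
      (O.inc (algebraMap R F0 r + (y0 ^ p - y0))) := by
    rw [map_add, map_sub, map_pow, O.inc_R]
    exact (CongP.refl 1 _).add (STop_sub (hyy0.pow S ((O.inc_mem y0).2 hy0) p) hyy0)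
  have h3 : CongP ϖ 𝒪0 1 (g' ^ p) (algebraMap R F0 r + (y0 ^ p - y0)) := by
    rw [← O.inc_congP_iff, map_pow]
    exact h1.trans h2
  have h4 : CongP ϖ 𝒪0 1 ((y0 - g') ^ p) (y0 ^ p - g' ^ p) := congP_sub_pow S0 hp2 hy0 hg'O
  have h7 : CongP ϖ 𝒪0 1 ((y0 - g') ^ p) (y0 ^ p - (algebraMap R F0 r + (y0 ^ p - y0))) :=
    h4.trans (STop_sub (CongP.refl 1 (y0 ^ p)) h3)
  have h5 : CongP ϖ 𝒪0 1 g' (algebraMap R F0 r + ((y0 - g') ^ p - (y0 - g'))) := by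
    unfold CongP at h7 ⊢
    have e : (g' - (algebraMap R F0 r + ((y0 - g') ^ p - (y0 - g')))) / algebraMap R F0 ϖ ^ 1 =
        -(((y0 - g') ^ p - (y0 ^ p - (algebraMap R F0 r + (y0 ^ p - y0)))) /
          algebraMap R F0 ϖ ^ 1) := by ring
    rw [e]
    exact neg_mem h7
  have h9 := O.Fr_congP S0 h5
  obtain ⟨r', hr'⟩ := O.exists_Fr_R S0 r
  rw [hg', RingEquiv.apply_symm_apply, map_add, map_sub, map_pow, hr', ← hg'] at h9
  have hY' : O.Fr (y0 - g') ∈ 𝒪0 := (O.Fr_mem _).2 (sub_mem hy0 hg'O)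
  have hlam : algebraMap R F0 lam ^ p =
      algebraMap R F0 ϖ ^ (p * e1) * algebraMap R F0 (((ε⁻¹ : Rˣ) : R) ^ p) := by
    have h0 : lam = ϖ ^ e1 * ((ε⁻¹ : Rˣ) : R) := by
      rw [← hε, mul_assoc, Units.mul_inv, mul_one]
    rw [← map_pow, ← map_pow, ← map_mul, pow_mul', ← mul_pow, ← h0]
  have hP0 := S0.gauss.ne_zero
  have h10 : CongP ϖ 𝒪0 (p * e1 + 1) (1 + algebraMap R F0 lam ^ p * g1)
      (1 + algebraMap R F0 lam ^ p *
        (algebraMap R F0 r' + (O.Fr (y0 - g') ^ p - O.Fr (y0 - g')))) := by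
    unfold CongP at h9 ⊢
    have e : (1 + algebraMap R F0 lam ^ p * g1 - (1 + algebraMap R F0 lam ^ p *
        (algebraMap R F0 r' + (O.Fr (y0 - g') ^ p - O.Fr (y0 - g'))))) /
          algebraMap R F0 ϖ ^ (p * e1 + 1) =
        algebraMap R F0 (((ε⁻¹ : Rˣ) : R) ^ p) *
          ((g1 - (algebraMap R F0 r' + (O.Fr (y0 - g') ^ p - O.Fr (y0 - g')))) /
            algebraMap R F0 ϖ ^ 1) := by
      rw [hlam, pow_succ]
      field_simp
      ring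
    rw [e]
    exact 𝒪0.mul_mem _ _ (S0.base _) h9
  have h11 := dep_succ_of_artinSchreier (L := L) S0 r' hY' h10
  rw [← hpow0, ← hrep] at h11
  exact (dep_mul_iff _ hc hz u).1 h11

end Fermat.Agent.S33.SM.Ops
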