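import Fermat.Agent.S33.SM.GLink

/-!
# S33-SM, abstract layer: theorem (G)

A family of classes `u z` of level `M0`, of depth `≥ 1`, such that `u z / Φ (u (s z))` is deep at
level `N` for all `z`, reaches the top depth `p e1`.

Paper proof (one step `i → i + 1`, `0 < i < p e1`).  Choose representatives
`v z = c z₁ ^ p u z = 1 + ϖ ^ i g z` (`exists_rep_of_dep`); they are still linked
(`Linked.of_mul`).  `Linked.leading`: `c w ^ p (1 + ϖ ^ i inc (g z)) ≡ 1 + ϖ ^ i Φ (g (s z))`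
modulo `ϖ ^ (i + 1)`.
* `p ∤ i`: `leading_unique` gives `Φ (g (s z)) - inc (g z) ≡ r`; axiom `nu` for `Y = range g` gives
  `g z ≡ r'`; `dep_succ_of_const`.
* `i = p a`: `leading_unique_pow` gives `Φ (g (s z)) - inc (g z) ≡ r + y ^ p`;
  `Φ g' ≡ inc (Fr⁻¹ g') ^ p`; so `inc (g z) ≡ (inc (Fr⁻¹ g') - y) ^ p - r`; `dense` gives
  `inc (Fr⁻¹ g') - y ≡ inc y0`; so `g z ≡ - r + y0 ^ p`; `dep_succ_of_pow`.
-/

set_option autoImplicit false

namespace Fermat.Agent.S33.SM.Ops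

open Fermat.Agent.LP.Dep

variable {R L F0 F : Type*} [CommRing R] [IsDomain R] [IsDiscreteValuationRing R]
  [Field L] [Algebra R L] [IsFractionRing R L]
  [Field F0] [Algebra R F0] [Algebra L F0] [IsScalarTower R L F0]
  [Field F] [Algebra R F] [Algebra L F] [IsScalarTower R L F]
variable {ϖ : R} {𝒪0 : ValuationSubring F0} {𝒪 : ValuationSubring F} {p e1 : ℕ} {lam : R}
  (O : Ops L ϖ 𝒪0 𝒪 p)

/-- one step of (G), case `i = p a`. -/
theorem G_step_dvd (S0 : DepSetting ϖ 𝒪0 p e1 lam) (S : DepSetting ϖ 𝒪 p e1 lam) (hp2 : p ≠ 2)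
    {a : ℕ} (ha0 : 0 < a) (ha : a < e1) {g g' : F0} (hg : g ∈ 𝒪0) (hg' : g' ∈ 𝒪0)
    (h : O.Linked e1 (1 + algebraMap R F0 ϖ ^ (p * a) * g)
      (1 + algebraMap R F0 ϖ ^ (p * a) * g')) :
    Dep L ϖ 𝒪0 p (p * a + 1) (1 + algebraMap R F0 ϖ ^ (p * a) * g) := by
  have hi0 : 0 < p * a := Nat.mul_pos S.prime.pos ha0
  have hi : p * a < p * e1 := Nat.mul_lt_mul_of_pos_left ha S.prime.pos
  obtain ⟨c, w, hc, hw, hcong⟩ := Linked.leading O S0 S hi0 hi.le hg hg' h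
  have hig : O.inc g ∈ 𝒪 := (O.inc_mem g).2 hg
  have hΦg' : O.Φ g' ∈ 𝒪 := O.Φ_mem g' hg'
  obtain ⟨r, y, hy, h1⟩ := leading_unique_pow S hi0 hi hc hw hig hΦg' hcong
  have h3 := O.Φ_congP_pow hg'
  have hx : O.inc (O.Fr.symm g') ∈ 𝒪 := (O.inc_mem _).2 ((O.Fr_symm_mem g').2 hg')
  have h4 := congP_sub_pow S hp2 hx hy
  obtain ⟨y0, hy0, h5⟩ := O.dense (O.inc (O.Fr.symm g') - y) (𝒪.sub_mem hx hy)
  have h6 := h5.pow S ((O.inc_mem y0).2 hy0) p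
  have h7 : CongP ϖ 𝒪0 1 g (algebraMap R F0 (-r) + y0 ^ p) := by
    rw [← O.inc_congP_iff, map_add, map_pow, O.inc_R, map_neg]
    unfold CongP at h1 h3 h4 h6 ⊢
    have e : (O.inc g - (-algebraMap R F r + O.inc y0 ^ p)) / algebraMap R F ϖ ^ 1 =
        -((O.Φ g' - O.inc g - (algebraMap R F r + y ^ p)) / algebraMap R F ϖ ^ 1)
        + (O.Φ g' - O.inc (O.Fr.symm g') ^ p) / algebraMap R F ϖ ^ 1
        - ((O.inc (O.Fr.symm g') - y) ^ p - (O.inc (O.Fr.symm g') ^ p - y ^ p)) /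
            algebraMap R F ϖ ^ 1
        + ((O.inc (O.Fr.symm g') - y) ^ p - O.inc y0 ^ p) / algebraMap R F ϖ ^ 1 := by
      ring
    rw [e]
    exact 𝒪.add_mem _ _ (𝒪.sub_mem (𝒪.add_mem _ _ (𝒪.neg_mem _ h1) h3) h4) h6
  refine dep_succ_of_pow S0 ha0 ha (-r) hy0 ?_
  have hP0 := S0.gauss.ne_zero
  unfold CongP at h7 ⊢
  have e : (1 + algebraMap R F0 ϖ ^ (p * a) * g -
      (1 + algebraMap R F0 ϖ ^ (p * a) * (algebraMap R F0 (-r) + y0 ^ p))) /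
        algebraMap R F0 ϖ ^ (p * a + 1) =
      (g - (algebraMap R F0 (-r) + y0 ^ p)) / algebraMap R F0 ϖ ^ 1 := by
    rw [pow_succ]
    field_simp
    ring
  rw [e]
  exact h7

end Fermat.Agent.S33.SM.Ops
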