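import Fermat.Agent.S33.SM.Ops
import Fermat.Agent.LP.Dep.Up

/-!
# S33-SM, abstract layer: four lemmas on one `DepSetting` (complements to LP-DEP)
-/

set_option autoImplicit false
set_option linter.unusedSectionVars false
set_option linter.unusedVariables false

namespace Fermat.Agent.S33.SM.Ops

open Fermat.Agent.LP.Dep

variable {R L F0 F : Type*} [CommRing R] [IsDomain R] [IsDiscreteValuationRing R]
  [Field L] [Algebra R L] [IsFractionRing R L]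
  [Field F0] [Algebra R F0] [Algebra L F0] [IsScalarTower R L F0]
  [Field F] [Algebra R F] [Algebra L F] [IsScalarTower R L F]
variable {ϖ : R} {𝒪0 : ValuationSubring F0} {𝒪 : ValuationSubring F} {p e1 : ℕ} {lam : R}
  (O : Ops L ϖ 𝒪0 𝒪 p)

/-- `(x - y) ^ p ≡ x ^ p - y ^ p` modulo `ϖ` (`p` odd). -/
theorem congP_sub_pow (S : DepSetting ϖ 𝒪 p e1 lam) (hp2 : p ≠ 2) {x y : F} (hx : x ∈ 𝒪)
    (hy : y ∈ 𝒪) : CongP ϖ 𝒪 1 ((x - y) ^ p) (x ^ p - y ^ p) := by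
  have hP : algebraMap R F ϖ ∈ 𝒪 := S.base ϖ
  obtain ⟨r, hr⟩ := exists_add_pow_prime_eq S.prime (⟨x, hx⟩ : 𝒪) (-⟨y, hy⟩)
  have hr' : (x + -y) ^ p = x ^ p + (-y) ^ p + p * x * (-y) * (r : F) := by
    have := congrArg (Subtype.val : 𝒪 → F) hr
    push_cast at this
    exact this
  obtain ⟨w, hw, hpw⟩ := Pow_p_eq' S
  obtain ⟨k, hk⟩ : ∃ k, (p - 1) * e1 = 1 + k := by
    have h1 : 0 < (p - 1) * e1 :=
      Nat.mul_pos (by have := S.prime.two_le; omega) S.e1_pos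
    exact ⟨(p - 1) * e1 - 1, by omega⟩
  refine Pow_congP_of_eq (t := algebraMap R F ϖ ^ k * w * x * (-y) * (r : F))
    (𝒪.mul_mem _ _ (𝒪.mul_mem _ _ (𝒪.mul_mem _ _ (𝒪.mul_mem _ _ (𝒪.pow_mem hP k) hw) hx)
      (𝒪.neg_mem _ hy)) r.2) ?_
  rw [sub_eq_add_neg x y, hr', (S.prime.odd_of_ne_two hp2).neg_pow, hpw, hk, pow_add]
  ring

/-- if `c z ^ p` is a unit then `c` and `z` can be taken to be units. -/
theorem exists_unit_rep (S : DepSetting ϖ 𝒪 p e1 lam) {c : L} {z : F} (hc : c ≠ 0) (hz : z ≠ 0)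
    (h : algebraMap L F c * z ^ p ∈ 𝒪) (h' : (algebraMap L F c * z ^ p)⁻¹ ∈ 𝒪) :
    ∃ (c' : L) (z' : F), algebraMap L F c' ∈ 𝒪 ∧ (algebraMap L F c')⁻¹ ∈ 𝒪 ∧ z' ∈ 𝒪 ∧ z'⁻¹ ∈ 𝒪 ∧
      algebraMap L F c * z ^ p = algebraMap L F c' * z' ^ p := by
  obtain ⟨n, y, hy, hy', hzy⟩ := exists_zpow_mul_unit S hz
  have hP0 : algebraMap R F ϖ ≠ 0 := S.gauss.ne_zero
  have hy0 : y ≠ 0 := by
    rintro rfl
    rw [mul_zero] at hzy
    exact hz hzy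
  have hc' : algebraMap L F (c * algebraMap R L ϖ ^ ((p : ℤ) * n)) =
      algebraMap L F c * algebraMap R F ϖ ^ ((p : ℤ) * n) := by
    rw [map_mul, map_zpow₀, ← IsScalarTower.algebraMap_apply R L F]
  have hzp : z ^ p = algebraMap R F ϖ ^ ((p : ℤ) * n) * y ^ p := by
    rw [hzy, mul_pow, ← zpow_natCast (algebraMap R F ϖ ^ n) p, ← zpow_mul, mul_comm n]
  have heq : algebraMap L F c * z ^ p =
      algebraMap L F (c * algebraMap R L ϖ ^ ((p : ℤ) * n)) * y ^ p := by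
    rw [hc', hzp, mul_assoc]
  refine ⟨c * algebraMap R L ϖ ^ ((p : ℤ) * n), y, ?_, ?_, hy, hy', heq⟩
  · have : algebraMap L F (c * algebraMap R L ϖ ^ ((p : ℤ) * n)) =
        algebraMap L F c * z ^ p * y⁻¹ ^ p := by
      rw [heq, inv_pow, mul_assoc, mul_inv_cancel₀ (pow_ne_zero p hy0), mul_one]
    rw [this]
    exact 𝒪.mul_mem _ _ h (𝒪.pow_mem hy' p)
  · have : (algebraMap L F (c * algebraMap R L ϖ ^ ((p : ℤ) * n)))⁻¹ =
        (algebraMap L F c * z ^ p)⁻¹ * y ^ p := by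
      rw [heq, mul_inv, mul_assoc, inv_mul_cancel₀ (pow_ne_zero p hy0), mul_one]
    rw [this]
    exact 𝒪.mul_mem _ _ h' (𝒪.pow_mem hy p)

/-- a representative `1 + ϖ ^ i g` of a class of depth `≥ i`. -/
theorem exists_rep_of_dep (S0 : DepSetting ϖ 𝒪0 p e1 lam) {i : ℕ} {u : F0}
    (h : Dep L ϖ 𝒪0 p i u) :
    ∃ (c : L) (z g : F0), c ≠ 0 ∧ z ≠ 0 ∧ g ∈ 𝒪0 ∧
      algebraMap L F0 c * z ^ p * u = 1 + algebraMap R F0 ϖ ^ i * g := by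
  obtain ⟨c, z, hc, hz, hcong⟩ := h
  have hP0 : algebraMap R F0 ϖ ≠ 0 := S0.gauss.ne_zero
  refine ⟨c, z, (algebraMap L F0 c * z ^ p * u - 1) / algebraMap R F0 ϖ ^ i, hc, hz, hcong, ?_⟩
  rw [mul_div_cancel₀ _ (pow_ne_zero i hP0)]
  ring

/-- the leading term is well defined modulo constants and `p`-th powers (any `0 < i < p e1`). -/
theorem leading_unique_pow (S : DepSetting ϖ 𝒪 p e1 lam) {i : ℕ} (hi0 : 0 < i) (hi : i < p * e1)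
    {c : L} {z : F} (hc : c ≠ 0) (hz : z ≠ 0) {g g' : F} (hg : g ∈ 𝒪) (hg' : g' ∈ 𝒪)
    (h : CongP ϖ 𝒪 (i + 1) (algebraMap L F c * z ^ p * (1 + algebraMap R F ϖ ^ i * g))
      (1 + algebraMap R F ϖ ^ i * g')) :
    ∃ (r : R) (y : F), y ∈ 𝒪 ∧ CongP ϖ 𝒪 1 (g' - g) (algebraMap R F r + y ^ p) := by
  have hP : algebraMap R F ϖ ∈ 𝒪 := S.base ϖ
  have hP0 : algebraMap R F ϖ ≠ 0 := S.gauss.ne_zero
  have hA1 : CongP ϖ 𝒪 i (1 + algebraMap R F ϖ ^ i * g) 1 :=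
    Pow_congP_of_eq (t := g) hg (by ring)
  have hB1 : CongP ϖ 𝒪 i (1 + algebraMap R F ϖ ^ i * g') 1 :=
    Pow_congP_of_eq (t := g') hg' (by ring)
  have hA : 1 + algebraMap R F ϖ ^ i * g ∈ 𝒪 :=
    𝒪.add_mem _ _ 𝒪.one_mem (𝒪.mul_mem _ _ (𝒪.pow_mem hP i) hg)
  have hA0 : 1 + algebraMap R F ϖ ^ i * g ≠ 0 := (hA1.inv_one S hi0).1
  have hw1 : CongP ϖ 𝒪 i (algebraMap L F c * z ^ p) 1 := by
    have h1 := (((h.mono S (Nat.le_succ i)).trans hB1).trans hA1.symm).div_one S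
      (hA1.mono S hi0)
    rwa [mul_div_cancel_right₀ _ hA0] at h1
  obtain ⟨r, y, hy, -, hexact⟩ := exact_depth S hi0 hi hc hz hw1
  refine ⟨r, y, hy, ?_⟩
  obtain ⟨k, rfl⟩ : ∃ k, i = k + 1 := ⟨i - 1, by omega⟩
  set w := algebraMap L F c * z ^ p with hw
  set P := algebraMap R F ϖ with hPdef
  set s := algebraMap R F r + y ^ p with hs
  have hsO : s ∈ 𝒪 := 𝒪.add_mem _ _ (S.base r) (𝒪.pow_mem hy p)
  have hD1 : w = 1 + P ^ (k + 1) * s + P ^ (k + 1 + 1) * ((w - (1 + P ^ (k + 1) * s)) /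
      P ^ (k + 1 + 1)) := by
    rw [mul_div_cancel₀ _ (pow_ne_zero _ hP0)]
    ring
  have hD2 : w * (1 + P ^ (k + 1) * g) = 1 + P ^ (k + 1) * g' + P ^ (k + 1 + 1) *
      ((w * (1 + P ^ (k + 1) * g) - (1 + P ^ (k + 1) * g')) / P ^ (k + 1 + 1)) := by
    rw [mul_div_cancel₀ _ (pow_ne_zero _ hP0)]
    ring
  have hD1O : (w - (1 + P ^ (k + 1) * s)) / P ^ (k + 1 + 1) ∈ 𝒪 := hexact
  have hD2O : (w * (1 + P ^ (k + 1) * g) - (1 + P ^ (k + 1) * g')) / P ^ (k + 1 + 1) ∈ 𝒪 := h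
  set D1 := (w - (1 + P ^ (k + 1) * s)) / P ^ (k + 1 + 1) with hD1def
  set D2 := (w * (1 + P ^ (k + 1) * g) - (1 + P ^ (k + 1) * g')) / P ^ (k + 1 + 1) with hD2def
  refine Pow_congP_of_eq (t := P ^ k * s * g + D1 * (1 + P ^ (k + 1) * g) - D2)
    (𝒪.sub_mem (𝒪.add_mem _ _ (𝒪.mul_mem _ _ (𝒪.mul_mem _ _ (𝒪.pow_mem hP k) hsO) hg)
      (𝒪.mul_mem _ _ hD1O hA)) hD2O) ?_
  apply mul_left_cancel₀ (pow_ne_zero (k + 1) hP0)
  rw [hD1] at hD2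
  linear_combination (-1 : F) * hD2

end Fermat.Agent.S33.SM.Ops
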