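import Fermat.Agent.S33.SM.OpsBasic
import Fermat.Agent.S33.SM.OpsLead

/-!
# S33-SM, abstract layer: theorem (G)

A family of classes `u z` of level `M0`, of depth `≥ 1`, such that `u z / Φ (u (s z))` is deep at
level `N` for all `z`, reaches the top depth `p e1`.

Paper proof (one step `i → i + 1`, `0 < i < p e1`).  Choose representatives
`v z = c z₁ ^ p u z = 1 + ϖ ^ i g z` (`exists_rep_of_dep`); they are still linked
(`Linked.of_mul`).  `Linked.leading`: `c w ^ p (1 + ϖ ^ i inc (g z)) ≡ 1 + ϖ ^ i Φ (g (s z))`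
modulo `ϖ ^ (i + 1)`.
* `p ∤ i`: `leading_unique` gives `Φ (g (s z)) - inc (g z) ≡ r`; axiom `nu` for `Y = range g` gives
  `g z ≡ r'`; `dep_succ_of_const`.
* `i = p a`: `leading_unique_pow` gives `Φ (g (s z)) - inc (g z) ≡ r + y ^ p`;
  `Φ g' ≡ inc (Fr⁻¹ g') ^ p`; so `inc (g z) ≡ (inc (Fr⁻¹ g') - y) ^ p - r`; `dense` gives
  `inc (Fr⁻¹ g') - y ≡ inc y0`; so `g z ≡ - r + y0 ^ p`; `dep_succ_of_pow`.
-/

set_option autoImplicit false

namespace Fermat.Agent.S33.SM.Ops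

open Fermat.Agent.LP.Dep

variable {R L F0 F : Type*} [CommRing R] [IsDomain R] [IsDiscreteValuationRing R]
  [Field L] [Algebra R L] [IsFractionRing R L]
  [Field F0] [Algebra R F0] [Algebra L F0] [IsScalarTower R L F0]
  [Field F] [Algebra R F] [Algebra L F] [IsScalarTower R L F]
variable {ϖ : R} {𝒪0 : ValuationSubring F0} {𝒪 : ValuationSubring F} {p e1 : ℕ} {lam : R}
  (O : Ops L ϖ 𝒪0 𝒪 p)

/-- `Linked` only depends on the classes modulo constants and `p`-th powers of `F0`. -/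
theorem Linked.of_mul {u u' : F0} (h : O.Linked e1 u u') {c c' : L} {z z' : F0} (hc : c ≠ 0)
    (hz : z ≠ 0) (hc' : c' ≠ 0) (hz' : z' ≠ 0) :
    O.Linked e1 (algebraMap L F0 c * z ^ p * u) (algebraMap L F0 c' * z' ^ p * u') := by
  unfold Linked at h ⊢
  have e : O.inc (algebraMap L F0 c * z ^ p * u) / O.Φ (algebraMap L F0 c' * z' ^ p * u') =
      algebraMap L F (c / c') * (O.inc z / O.Φ z') ^ p * (O.inc u / O.Φ u') := by
    simp only [map_mul, map_pow, AlgHom.commutes, div_eq_mul_inv, mul_inv, mul_pow,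
      inv_pow, map_inv₀]
    ring
  rw [e]
  exact (dep_mul_iff _ (div_ne_zero hc hc')
    (div_ne_zero ((map_ne_zero O.inc).2 hz) ((map_ne_zero O.Φ).2 hz')) _).2 h

/-- the leading terms of linked elements. -/
theorem Linked.leading (S0 : DepSetting ϖ 𝒪0 p e1 lam) (S : DepSetting ϖ 𝒪 p e1 lam) {i : ℕ}
    (hi0 : 0 < i) (hi : i ≤ p * e1) {g g' : F0} (hg : g ∈ 𝒪0) (hg' : g' ∈ 𝒪0)
    (h : O.Linked e1 (1 + algebraMap R F0 ϖ ^ i * g) (1 + algebraMap R F0 ϖ ^ i * g')) :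
    ∃ (c : L) (w : F), c ≠ 0 ∧ w ≠ 0 ∧
      CongP ϖ 𝒪 (i + 1) (algebraMap L F c * w ^ p * (1 + algebraMap R F ϖ ^ i * O.inc g))
        (1 + algebraMap R F ϖ ^ i * O.Φ g') := by
  obtain ⟨c, w, hc, hw, hcong⟩ := h
  refine ⟨c, w, hc, hw, ?_⟩
  have hP0 := S.gauss.ne_zero
  have e1' : O.inc (1 + algebraMap R F0 ϖ ^ i * g) = 1 + algebraMap R F ϖ ^ i * O.inc g := by
    rw [map_add, map_one, map_mul, map_pow, O.inc_R]
  have e2 : O.Φ (1 + algebraMap R F0 ϖ ^ i * g') = 1 + algebraMap R F ϖ ^ i * O.Φ g' := by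
    rw [map_add, map_one, map_mul, map_pow, O.Φ_R]
  rw [e1', e2] at hcong
  have hΦg : O.Φ g' ∈ 𝒪 := O.Φ_mem g' hg'
  have hmem : 1 + algebraMap R F ϖ ^ i * O.Φ g' ∈ 𝒪 :=
    𝒪.add_mem _ _ 𝒪.one_mem (𝒪.mul_mem _ _ (pow_mem (S.base ϖ) i) hΦg)
  have hc1 : CongP ϖ 𝒪 i (1 + algebraMap R F ϖ ^ i * O.Φ g') 1 := by
    unfold CongP
    rw [add_sub_cancel_left, mul_div_cancel_left₀ _ (pow_ne_zero i hP0)]
    exact hΦg
  have hne : 1 + algebraMap R F ϖ ^ i * O.Φ g' ≠ 0 := (hc1.inv_one S hi0).1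
  have h2 := hcong.mul S (CongP.refl (ϖ := ϖ) (𝒪 := 𝒪) (p * e1 + 1)
    (1 + algebraMap R F ϖ ^ i * O.Φ g')) 𝒪.one_mem hmem
  rw [one_mul, mul_assoc, div_mul_cancel₀ _ hne] at h2
  exact h2.mono S (by omega)

end Fermat.Agent.S33.SM.Ops
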