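import Fermat.Agent.LP.Dep.Defs

/-!
# S33-SM, abstract layer: the two-level depth setting and its operators (definitions only)

`R` a DVR with uniformizer `ϖ`, `L = Frac R`.  `F0` (level `M0`) and `F` (level `N = p M0`) are
fields over `L` with Gauss valuation rings `𝒪0`, `𝒪`.

* `inc : F0 → F` the inclusion, `Φ : F0 → F` the substitution `q ↦ q ^ p`,
* `Fr : F0 ≃ F0` a Frobenius element acting on the coefficients,
* `U : F0 → F` the operator `normT p ζ`.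
-/

set_option autoImplicit false

namespace Fermat.Agent.S33.SM

open Fermat.Agent.LP.Dep

variable {R : Type*} [CommRing R] (L : Type*) [Field L]
  {F0 : Type*} [Field F0] [Algebra R F0] [Algebra L F0]
  {F : Type*} [Field F] [Algebra R F] [Algebra L F]

/-- The operators of the two-level depth setting. -/
structure Ops (ϖ : R) (𝒪0 : ValuationSubring F0) (𝒪 : ValuationSubring F) (p : ℕ) where
  inc : F0 →ₐ[L] F
  Φ : F0 →ₐ[L] F
  Fr : F0 ≃+* F0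
  U : F0 →* F
  inc_mem : ∀ x : F0, inc x ∈ 𝒪 ↔ x ∈ 𝒪0
  Φ_mem : ∀ x ∈ 𝒪0, Φ x ∈ 𝒪
  Fr_mem : ∀ x : F0, Fr x ∈ 𝒪0 ↔ x ∈ 𝒪0
  /-- `Fr` preserves the constants. -/
  Fr_L : ∀ c : L, ∃ c' : L, Fr (algebraMap L F0 c) = algebraMap L F0 c'
  Fr_symm_L : ∀ c : L, ∃ c' : L, Fr.symm (algebraMap L F0 c) = algebraMap L F0 c'
  /-- `Φ ∘ Fr` is a lift of the absolute Frobenius. -/
  Φ_Fr : ∀ x ∈ 𝒪0, CongP ϖ 𝒪 1 (Φ (Fr x)) (inc x ^ p)
  /-- `F0` and `F` have the same residue field. -/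
  dense : ∀ x ∈ 𝒪, ∃ x0 ∈ 𝒪0, CongP ϖ 𝒪 1 x (inc x0)
  /-- a set of elements of the residue field of `F0` which is contained in its image under `Φ`
  modulo constants consists of constants. -/
  nu : ∀ Y : Set F0, (∀ f ∈ Y, f ∈ 𝒪0) →
    (∀ f' ∈ Y, ∃ f ∈ Y, ∃ r : R, CongP ϖ 𝒪 1 (inc f') (Φ f + algebraMap R F r)) →
    ∀ f ∈ Y, ∃ r : R, CongP ϖ 𝒪0 1 f (algebraMap R F0 r)
  U_L : ∀ c : L, ∃ c' : L, U (algebraMap L F0 c) = algebraMap L F c'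
  /-- contraction. -/
  U_small : ∀ (x : F0) (i : ℕ), 0 < i → CongP ϖ 𝒪0 i x 1 → CongP ϖ 𝒪 (i + 1) (U x) 1
  /-- `U` reduces to the Frobenius twist. -/
  U_Fr : ∀ x ∈ 𝒪0, CongP ϖ 𝒪 1 (U x) (inc (Fr x))

namespace Ops

variable {L} {ϖ : R} {𝒪0 : ValuationSubring F0} {𝒪 : ValuationSubring F} {p : ℕ}
  (O : Ops L ϖ 𝒪0 𝒪 p)

/-- the class of `u / Φ u'` is deep (depth `> p e1`) at level `N`. -/
def Linked (e1 : ℕ) (u u' : F0) : Prop := Dep L ϖ 𝒪 p (p * e1 + 1) (O.inc u / O.Φ u')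

/-- `T_p u = Φ u * U u` is a constant times a `p`-th power of `F`. -/
def Killed (u : F0) : Prop :=
  ∃ (c : L) (z : F), c ≠ 0 ∧ z ≠ 0 ∧ O.Φ u * O.U u = algebraMap L F c * z ^ p

end Ops

end Fermat.Agent.S33.SM
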