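import Fermat.Agent.S33.SM.Ops
import Fermat.Agent.LP.Dep.Up

/-!
# S33-SM, abstract layer: basic consequences of the axioms of `Ops`
-/

set_option autoImplicit false

namespace Fermat.Agent.S33.SM.Ops

open Fermat.Agent.LP.Dep

variable {R L F0 F : Type*} [CommRing R] [IsDomain R] [IsDiscreteValuationRing R]
  [Field L] [Algebra R L] [IsFractionRing R L]
  [Field F0] [Algebra R F0] [Algebra L F0] [IsScalarTower R L F0]
  [Field F] [Algebra R F] [Algebra L F] [IsScalarTower R L F]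
variable {ϖ : R} {𝒪0 : ValuationSubring F0} {𝒪 : ValuationSubring F} {p e1 : ℕ} {lam : R}
  (O : Ops L ϖ 𝒪0 𝒪 p)

theorem inc_R (r : R) : O.inc (algebraMap R F0 r) = algebraMap R F r := by
  rw [IsScalarTower.algebraMap_apply R L F0, AlgHom.commutes,
    ← IsScalarTower.algebraMap_apply R L F]

theorem Φ_R (r : R) : O.Φ (algebraMap R F0 r) = algebraMap R F r := by
  rw [IsScalarTower.algebraMap_apply R L F0, AlgHom.commutes,
    ← IsScalarTower.algebraMap_apply R L F]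

/-- `inc` preserves and reflects congruences. -/
theorem inc_congP_iff (i : ℕ) (x y : F0) :
    CongP ϖ 𝒪 i (O.inc x) (O.inc y) ↔ CongP ϖ 𝒪0 i x y := by
  unfold CongP
  rw [← O.inc_mem, map_div₀, map_sub, map_pow, O.inc_R]

theorem Φ_congP {i : ℕ} {x y : F0} (h : CongP ϖ 𝒪0 i x y) : CongP ϖ 𝒪 i (O.Φ x) (O.Φ y) := by
  unfold CongP at h ⊢
  have h1 := O.Φ_mem _ h
  rwa [map_div₀, map_sub, map_pow, O.Φ_R] at h1

/-- `Φ` reflects congruences modulo `ϖ`. -/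
theorem congP_of_Φ_congP (S0 : DepSetting ϖ 𝒪0 p e1 lam) (S : DepSetting ϖ 𝒪 p e1 lam) {x y : F0}
    (hx : x ∈ 𝒪0) (hy : y ∈ 𝒪0) (h : CongP ϖ 𝒪 1 (O.Φ x) (O.Φ y)) : CongP ϖ 𝒪0 1 x y := by
  unfold CongP at h ⊢
  rw [pow_one] at h ⊢
  rcases S0.gauss.unif (x - y) (sub_mem hx hy) with h1 | h1
  · exact h1
  · by_cases hd : x - y = 0
    · rw [hd, zero_div]
      exact 𝒪0.zero_mem
    · exfalso
      apply S.gauss.inv_not_mem
      have h2 := O.Φ_mem _ h1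
      rw [map_inv₀, map_sub] at h2
      have hd' : O.Φ x - O.Φ y ≠ 0 := by
        rw [← map_sub]
        exact (map_ne_zero _).2 hd
      have h3 : (algebraMap R F ϖ)⁻¹ = (O.Φ x - O.Φ y) / algebraMap R F ϖ * (O.Φ x - O.Φ y)⁻¹ := by
        field_simp
      rw [h3]
      exact mul_mem h h2

theorem Fr_symm_mem (x : F0) : O.Fr.symm x ∈ 𝒪0 ↔ x ∈ 𝒪0 := by
  rw [← O.Fr_mem, RingEquiv.apply_symm_apply]

omit [IsDomain R] [IsDiscreteValuationRing R] in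
/-- auxiliary: a ring automorphism preserving `𝒪0` preserves congruences modulo `ϖ`. -/
theorem OpsBasic_equiv_congP (S0 : DepSetting ϖ 𝒪0 p e1 lam) (E : F0 ≃+* F0)
    (hE : ∀ x : F0, E x ∈ 𝒪0 ↔ x ∈ 𝒪0) {x y : F0} (h : CongP ϖ 𝒪0 1 x y) :
    CongP ϖ 𝒪0 1 (E x) (E y) := by
  have h0 := S0.gauss.ne_zero
  have hE0 : E (algebraMap R F0 ϖ) ≠ 0 := (map_ne_zero _).2 h0
  have h1 : E (algebraMap R F0 ϖ) / algebraMap R F0 ϖ ∈ 𝒪0 := by
    rcases S0.gauss.unif _ ((hE _).2 S0.gauss.mem) with h1 | h1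
    · exact h1
    · exfalso
      rw [← map_inv₀, hE] at h1
      exact S0.gauss.inv_not_mem h1
  unfold CongP at h ⊢
  rw [pow_one] at h ⊢
  have h2 := (hE _).2 h
  rw [map_div₀, map_sub] at h2
  have h3 : (E x - E y) / algebraMap R F0 ϖ
      = (E x - E y) / E (algebraMap R F0 ϖ) * (E (algebraMap R F0 ϖ) / algebraMap R F0 ϖ) := by
    field_simp
  rw [h3]
  exact mul_mem h2 h1

theorem Fr_congP (S0 : DepSetting ϖ 𝒪0 p e1 lam) {x y : F0} (h : CongP ϖ 𝒪0 1 x y) :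
    CongP ϖ 𝒪0 1 (O.Fr x) (O.Fr y) := by
  exact OpsBasic_equiv_congP S0 O.Fr O.Fr_mem h

theorem Fr_symm_congP (S0 : DepSetting ϖ 𝒪0 p e1 lam) {x y : F0} (h : CongP ϖ 𝒪0 1 x y) :
    CongP ϖ 𝒪0 1 (O.Fr.symm x) (O.Fr.symm y) := by
  exact OpsBasic_equiv_congP S0 O.Fr.symm O.Fr_symm_mem h

/-- `Fr` maps `R` to `R`. -/
theorem exists_Fr_R (S0 : DepSetting ϖ 𝒪0 p e1 lam) (r : R) :
    ∃ r' : R, O.Fr (algebraMap R F0 r) = algebraMap R F0 r' := by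
  obtain ⟨c', hc'⟩ := O.Fr_L (algebraMap R L r)
  rw [← IsScalarTower.algebraMap_apply R L F0] at hc'
  have hmem : algebraMap L F0 c' ∈ 𝒪0 := by
    rw [← hc', O.Fr_mem]
    exact S0.base r
  obtain ⟨r', hr'⟩ := exists_of_algebraMap_mem S0 hmem
  exact ⟨r', by rw [hc', ← hr', ← IsScalarTower.algebraMap_apply R L F0]⟩

theorem exists_Fr_symm_R (S0 : DepSetting ϖ 𝒪0 p e1 lam) (r : R) :
    ∃ r' : R, O.Fr.symm (algebraMap R F0 r) = algebraMap R F0 r' := by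
  obtain ⟨c', hc'⟩ := O.Fr_symm_L (algebraMap R L r)
  rw [← IsScalarTower.algebraMap_apply R L F0] at hc'
  have hmem : algebraMap L F0 c' ∈ 𝒪0 := by
    rw [← hc', O.Fr_symm_mem]
    exact S0.base r
  obtain ⟨r', hr'⟩ := exists_of_algebraMap_mem S0 hmem
  exact ⟨r', by rw [hc', ← hr', ← IsScalarTower.algebraMap_apply R L F0]⟩

/-- (Φ1) `Φ g ≡ (Fr⁻¹ g) ^ p`. -/
theorem Φ_congP_pow {g : F0} (hg : g ∈ 𝒪0) :
    CongP ϖ 𝒪 1 (O.Φ g) (O.inc (O.Fr.symm g) ^ p) := by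
  have h := O.Φ_Fr (O.Fr.symm g) ((O.Fr_symm_mem g).2 hg)
  rwa [RingEquiv.apply_symm_apply] at h

theorem U_ne_zero {x : F0} (hx : x ≠ 0) : O.U x ≠ 0 := by
  intro h0
  have h1 : O.U x * O.U x⁻¹ = 1 := by
    rw [← map_mul, mul_inv_cancel₀ hx, map_one]
  rw [h0, zero_mul] at h1
  exact zero_ne_one h1

/-- a unit of `𝒪` is congruent to a unit of `𝒪0`. -/
theorem dense_unit (S0 : DepSetting ϖ 𝒪0 p e1 lam) (S : DepSetting ϖ 𝒪 p e1 lam) {x : F}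
    (hx : x ∈ 𝒪) (hx' : x⁻¹ ∈ 𝒪) :
    ∃ x0 : F0, x0 ∈ 𝒪0 ∧ x0⁻¹ ∈ 𝒪0 ∧ CongP ϖ 𝒪 1 x (O.inc x0) := by
  by_cases hx0 : x = 0
  · refine ⟨0, 𝒪0.zero_mem, by rw [inv_zero]; exact 𝒪0.zero_mem, ?_⟩
    rw [hx0, map_zero]
    exact CongP.refl 1 0
  obtain ⟨x0, hx0m, hc⟩ := O.dense x hx
  refine ⟨x0, hx0m, ?_, hc⟩
  rcases S0.gauss.unif x0 hx0m with h1 | h1
  · exfalso
    apply S.gauss.inv_not_mem
    have h2 : O.inc x0 / algebraMap R F ϖ ∈ 𝒪 := by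
      rw [← O.inc_R, ← map_div₀, O.inc_mem]
      exact h1
    unfold CongP at hc
    rw [pow_one] at hc
    have h3 : (algebraMap R F ϖ)⁻¹
        = ((x - O.inc x0) / algebraMap R F ϖ + O.inc x0 / algebraMap R F ϖ) * x⁻¹ := by
      field_simp
      ring
    rw [h3]
    exact mul_mem (add_mem hc h2) hx'
  · exact h1

end Fermat.Agent.S33.SM.Ops
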