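import Fermat.Agent.S33.SM.OpsBasic
import Fermat.Agent.S33.SM.OpsLead

/-!
# S33-SM, abstract layer: theorem (S)

Over a base with `e1 = 1` a nonzero `u ∈ F0` with `T_p u = Φ u * U u ∈ L^× F^p` is deep.

Paper proof.
* Step 0 (`Killed.dep_one`).  `u = ϖ ^ n u₁`, `u₁` a unit (`exists_zpow_mul_unit`); `u₁` is still
  killed.  `Φ u₁ * U u₁ = c z ^ p` is a unit, so `c`, `z` are units wlog (`exists_unit_rep`).
  `inc (Fr u₁) ≡ U u₁ = c z ^ p / Φ u₁ ≡ c (z / inc (Fr⁻¹ u₁)) ^ p ≡ c (inc z0) ^ p`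
  (`U_Fr`, `Φ_congP_pow`, `dense_unit`), so `Fr u₁ ≡ c z0 ^ p`, `u₁ ≡ Fr⁻¹ c (Fr⁻¹ z0) ^ p`.
* Step `i`, `0 < i < p e1`, `p ∤ i` (`Killed.dep_succ`).  Representative `1 + ϖ ^ i g`;
  `U (1 + ϖ ^ i g) ≡ 1` modulo `ϖ ^ (i + 1)` (`U_small`), so
  `c z ^ p ≡ 1 + ϖ ^ i Φ g`; `leading_unique` (with `g := 0`) gives `Φ g ≡ r = Φ r`, so `g ≡ r`
  (`congP_of_Φ_congP`); `dep_succ_of_const`.
* Step `p e1` (`Killed.dep_top_succ`).  Representative `1 + lam ^ p g`; `leading_unique_top` gives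
  `Φ g ≡ r + y ^ p - y`, `y ≡ inc y0`; with `g' = Fr⁻¹ g`: `g' ^ p ≡ r + y0 ^ p - y0`, so
  `g' ≡ r + (y0 - g') ^ p - (y0 - g')`; apply `Fr`; `dep_succ_of_artinSchreier`.
-/

set_option autoImplicit false

namespace Fermat.Agent.S33.SM.Ops

open Fermat.Agent.LP.Dep

variable {R L F0 F : Type*} [CommRing R] [IsDomain R] [IsDiscreteValuationRing R]
  [Field L] [Algebra R L] [IsFractionRing R L]
  [Field F0] [Algebra R F0] [Algebra L F0] [IsScalarTower R L F0]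
  [Field F] [Algebra R F] [Algebra L F] [IsScalarTower R L F]
variable {ϖ : R} {𝒪0 : ValuationSubring F0} {𝒪 : ValuationSubring F} {p e1 : ℕ} {lam : R}
  (O : Ops L ϖ 𝒪0 𝒪 p)

/-- `Killed` only depends on the class modulo constants and `p`-th powers of `F0`. -/
theorem Killed.of_mul {u : F0} (h : O.Killed u) {c : L} {z : F0} (hc : c ≠ 0) (hz : z ≠ 0) :
    O.Killed (algebraMap L F0 c * z ^ p * u) := by
  obtain ⟨c₀, z₀, hc₀, hz₀, h₀⟩ := h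
  obtain ⟨c'', hc''⟩ := O.U_L c
  have hcF0 : algebraMap L F0 c ≠ 0 := by
    rwa [Ne, map_eq_zero]
  have hc''0 : c'' ≠ 0 := by
    rintro rfl
    rw [map_zero] at hc''
    exact O.U_ne_zero hcF0 hc''
  have hΦz : O.Φ z ≠ 0 := by
    rwa [Ne, map_eq_zero]
  refine ⟨c * c'' * c₀, O.Φ z * O.U z * z₀, mul_ne_zero (mul_ne_zero hc hc''0) hc₀,
    mul_ne_zero (mul_ne_zero hΦz (O.U_ne_zero hz)) hz₀, ?_⟩
  rw [map_mul, map_mul, map_pow, AlgHom.commutes, map_mul, map_mul, map_pow, hc'']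
  have e : algebraMap L F c * O.Φ z ^ p * O.Φ u * (algebraMap L F c'' * O.U z ^ p * O.U u) =
      algebraMap L F c * algebraMap L F c'' * (O.Φ z * O.U z) ^ p * (O.Φ u * O.U u) := by ring
  rw [e, h₀, map_mul, map_mul]
  ring

/-- the leading term of `T_p (1 + ϖ ^ i g)`. -/
theorem Killed.leading (S0 : DepSetting ϖ 𝒪0 p e1 lam) (S : DepSetting ϖ 𝒪 p e1 lam) {i : ℕ}
    (hi0 : 0 < i) {g : F0} (hg : g ∈ 𝒪0) (h : O.Killed (1 + algebraMap R F0 ϖ ^ i * g)) :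
    ∃ (c : L) (w : F), c ≠ 0 ∧ w ≠ 0 ∧
      CongP ϖ 𝒪 (i + 1) (algebraMap L F c * w ^ p) (1 + algebraMap R F ϖ ^ i * O.Φ g) := by
  obtain ⟨c, z, hc, hz, h₀⟩ := h
  refine ⟨c, z, hc, hz, ?_⟩
  have hP0 : algebraMap R F0 ϖ ≠ 0 := S0.gauss.ne_zero
  have hcong : CongP ϖ 𝒪0 i (1 + algebraMap R F0 ϖ ^ i * g) 1 := by
    unfold CongP
    have e : (1 + algebraMap R F0 ϖ ^ i * g - 1) / algebraMap R F0 ϖ ^ i = g := by
      field_simp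
      ring
    rw [e]
    exact hg
  have hU := O.U_small _ i hi0 hcong
  have hΦ : O.Φ (1 + algebraMap R F0 ϖ ^ i * g) = 1 + algebraMap R F ϖ ^ i * O.Φ g := by
    rw [map_add, map_one, map_mul, map_pow, O.Φ_R]
  have hmem : 1 + algebraMap R F ϖ ^ i * O.Φ g ∈ 𝒪 :=
    𝒪.add_mem _ _ 𝒪.one_mem (𝒪.mul_mem _ _ (pow_mem (S.base ϖ) i) (O.Φ_mem g hg))
  have h1 := CongP.mul S (CongP.refl (ϖ := ϖ) (𝒪 := 𝒪) (i + 1) (1 + algebraMap R F ϖ ^ i * O.Φ g))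
    hU hmem 𝒪.one_mem
  rw [mul_one, ← hΦ, h₀, hΦ] at h1
  exact h1

end Fermat.Agent.S33.SM.Ops
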