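import Fermat.Agent.S33.SM.SLead

/-!
# S33-SM, abstract layer: theorem (S)

Over a base with `e1 = 1` a nonzero `u ∈ F0` with `T_p u = Φ u * U u ∈ L^× F^p` is deep.

Paper proof.
* Step 0 (`Killed.dep_one`).  `u = ϖ ^ n u₁`, `u₁` a unit (`exists_zpow_mul_unit`); `u₁` is still
  killed.  `Φ u₁ * U u₁ = c z ^ p` is a unit, so `c`, `z` are units wlog (`exists_unit_rep`).
  `inc (Fr u₁) ≡ U u₁ = c z ^ p / Φ u₁ ≡ c (z / inc (Fr⁻¹ u₁)) ^ p ≡ c (inc z0) ^ p`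
  (`U_Fr`, `Φ_congP_pow`, `dense_unit`), so `Fr u₁ ≡ c z0 ^ p`, `u₁ ≡ Fr⁻¹ c (Fr⁻¹ z0) ^ p`.
* Step `i`, `0 < i < p e1`, `p ∤ i` (`Killed.dep_succ`).  Representative `1 + ϖ ^ i g`;
  `U (1 + ϖ ^ i g) ≡ 1` modulo `ϖ ^ (i + 1)` (`U_small`), so
  `c z ^ p ≡ 1 + ϖ ^ i Φ g`; `leading_unique` (with `g := 0`) gives `Φ g ≡ r = Φ r`, so `g ≡ r`
  (`congP_of_Φ_congP`); `dep_succ_of_const`.
* Step `p e1` (`Killed.dep_top_succ`).  Representative `1 + lam ^ p g`; `leading_unique_top` gives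
  `Φ g ≡ r + y ^ p - y`, `y ≡ inc y0`; with `g' = Fr⁻¹ g`: `g' ^ p ≡ r + y0 ^ p - y0`, so
  `g' ≡ r + (y0 - g') ^ p - (y0 - g')`; apply `Fr`; `dep_succ_of_artinSchreier`.
-/

set_option autoImplicit false

namespace Fermat.Agent.S33.SM.Ops

open Fermat.Agent.LP.Dep

variable {R L F0 F : Type*} [CommRing R] [IsDomain R] [IsDiscreteValuationRing R]
  [Field L] [Algebra R L] [IsFractionRing R L]
  [Field F0] [Algebra R F0] [Algebra L F0] [IsScalarTower R L F0]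
  [Field F] [Algebra R F] [Algebra L F] [IsScalarTower R L F]
variable {ϖ : R} {𝒪0 : ValuationSubring F0} {𝒪 : ValuationSubring F} {p e1 : ℕ} {lam : R}
  (O : Ops L ϖ 𝒪0 𝒪 p)

/-- Step 0 for a unit. -/
theorem SZero_unit (S0 : DepSetting ϖ 𝒪0 p e1 lam) (S : DepSetting ϖ 𝒪 p e1 lam) {u : F0}
    (hu0 : u ≠ 0) (hu : u ∈ 𝒪0) (hu' : u⁻¹ ∈ 𝒪0) (h : O.Killed u) : Dep L ϖ 𝒪0 p 1 u := by
  obtain ⟨c, z, hc, hz, hcz⟩ := h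
  -- `Φ u`, `U u` are units
  have hΦ : O.Φ u ∈ 𝒪 := O.Φ_mem u hu
  have hΦ' : (O.Φ u)⁻¹ ∈ 𝒪 := by
    rw [← map_inv₀]
    exact O.Φ_mem _ hu'
  have hiF : O.inc (O.Fr u) ∈ 𝒪 := (O.inc_mem _).2 ((O.Fr_mem _).2 hu)
  have hiF' : O.inc (O.Fr u⁻¹) ∈ 𝒪 := (O.inc_mem _).2 ((O.Fr_mem _).2 hu')
  have h1 : CongP ϖ 𝒪 1 (O.U u) (O.inc (O.Fr u)) := O.U_Fr u hu
  have hU : O.U u ∈ 𝒪 := h1.mem S hiF
  have hU' : (O.U u)⁻¹ ∈ 𝒪 := by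
    have e : (O.U u)⁻¹ = O.U u⁻¹ := by
      apply inv_eq_of_mul_eq_one_right
      rw [← map_mul, mul_inv_cancel₀ hu0, map_one]
    rw [e]
    exact (O.U_Fr _ hu').mem S hiF'
  have hm : algebraMap L F c * z ^ p ∈ 𝒪 := by
    rw [← hcz]
    exact 𝒪.mul_mem _ _ hΦ hU
  have hm' : (algebraMap L F c * z ^ p)⁻¹ ∈ 𝒪 := by
    rw [← hcz, mul_inv]
    exact 𝒪.mul_mem _ _ hΦ' hU'
  obtain ⟨c', z', hC, hC', hz', hz'', hcz'⟩ := exists_unit_rep S hc hz hm hm'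
  rw [hcz'] at hcz
  -- `a = inc (Fr⁻¹ u)`
  set a : F := O.inc (O.Fr.symm u) with ha
  have ha0 : a ≠ 0 := by
    rw [ha, Ne, map_eq_zero, map_eq_zero]
    exact hu0
  have haO : a ∈ 𝒪 := (O.inc_mem _).2 ((O.Fr_symm_mem _).2 hu)
  have haO' : a⁻¹ ∈ 𝒪 := by
    rw [ha, ← map_inv₀, ← map_inv₀]
    exact (O.inc_mem _).2 ((O.Fr_symm_mem _).2 hu')
  have h2 : CongP ϖ 𝒪 1 (O.Φ u) (a ^ p) := O.Φ_congP_pow hu
  have h3 : CongP ϖ 𝒪 1 (O.Φ u * O.U u) (a ^ p * O.inc (O.Fr u)) :=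
    h2.mul S h1 (𝒪.pow_mem haO p) hiF
  rw [hcz] at h3
  have h5 : CongP ϖ 𝒪 1 (a⁻¹ ^ p * (algebraMap L F c' * z' ^ p))
      (a⁻¹ ^ p * (a ^ p * O.inc (O.Fr u))) :=
    (CongP.refl 1 (a⁻¹ ^ p)).mul S h3 (𝒪.pow_mem haO' p)
      (𝒪.mul_mem _ _ (𝒪.pow_mem haO p) hiF)
  have e1' : a⁻¹ ^ p * (a ^ p * O.inc (O.Fr u)) = O.inc (O.Fr u) := by
    rw [← mul_assoc, ← mul_pow, inv_mul_cancel₀ ha0, one_pow, one_mul]
  have e2 : a⁻¹ ^ p * (algebraMap L F c' * z' ^ p) = algebraMap L F c' * (z' * a⁻¹) ^ p := by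
    rw [mul_pow]
    ring
  rw [e1', e2] at h5
  -- approximate `y = z' / a`
  have hy : z' * a⁻¹ ∈ 𝒪 := 𝒪.mul_mem _ _ hz' haO'
  have hy' : (z' * a⁻¹)⁻¹ ∈ 𝒪 := by
    rw [mul_inv, inv_inv]
    exact 𝒪.mul_mem _ _ hz'' haO
  obtain ⟨z0, hz0, hz0', h6⟩ := O.dense_unit S0 S hy hy'
  have hiz0 : O.inc z0 ∈ 𝒪 := (O.inc_mem _).2 hz0
  have h7 : CongP ϖ 𝒪 1 ((z' * a⁻¹) ^ p) (O.inc z0 ^ p) := h6.pow S hiz0 p
  have h8 : CongP ϖ 𝒪 1 (algebraMap L F c' * (z' * a⁻¹) ^ p) (algebraMap L F c' * O.inc z0 ^ p) :=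
    (CongP.refl 1 (algebraMap L F c')).mul S h7 hC (𝒪.pow_mem hiz0 p)
  have h9 : CongP ϖ 𝒪 1 (O.inc (O.Fr u)) (algebraMap L F c' * O.inc z0 ^ p) := h5.symm.trans h8
  set v : F0 := algebraMap L F0 c' * z0 ^ p with hv
  have e3 : algebraMap L F c' * O.inc z0 ^ p = O.inc v := by
    rw [hv, map_mul, AlgHom.commutes, map_pow]
  rw [e3] at h9
  have h11 : CongP ϖ 𝒪0 1 (O.Fr u) v := (O.inc_congP_iff 1 _ _).1 h9
  have h12 : CongP ϖ 𝒪0 1 u (O.Fr.symm v) := by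
    have := O.Fr_symm_congP S0 h11
    rwa [RingEquiv.symm_apply_apply] at this
  -- `v` is a unit
  have hc0 : algebraMap L F0 c' ∈ 𝒪0 := (O.inc_mem _).1 (by rw [AlgHom.commutes]; exact hC)
  have hc0' : (algebraMap L F0 c')⁻¹ ∈ 𝒪0 :=
    (O.inc_mem _).1 (by rw [map_inv₀, AlgHom.commutes]; exact hC')
  have hvO : v ∈ 𝒪0 := 𝒪0.mul_mem _ _ hc0 (𝒪0.pow_mem hz0 p)
  have hvO' : v⁻¹ ∈ 𝒪0 := by
    rw [hv, mul_inv, ← inv_pow]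
    exact 𝒪0.mul_mem _ _ hc0' (𝒪0.pow_mem hz0' p)
  have hwO : O.Fr.symm v ∈ 𝒪0 := (O.Fr_symm_mem _).2 hvO
  have hwO' : (O.Fr.symm v)⁻¹ ∈ 𝒪0 := by
    rw [← map_inv₀]
    exact (O.Fr_symm_mem _).2 hvO'
  have hw0 : O.Fr.symm v ≠ 0 := by
    intro h0
    rw [h0] at h12
    unfold CongP at h12
    have h13 := 𝒪0.mul_mem _ _ h12 hu'
    have e4 : (u - 0) / algebraMap R F0 ϖ ^ 1 * u⁻¹ = (algebraMap R F0 ϖ)⁻¹ := by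
      rw [sub_zero, pow_one]
      field_simp
    rw [e4] at h13
    exact S0.gauss.inv_not_mem h13
  obtain ⟨c'', hc''⟩ := O.Fr_symm_L c'
  have hweq : O.Fr.symm v = algebraMap L F0 c'' * (O.Fr.symm z0) ^ p := by
    rw [hv, map_mul, map_pow, hc'']
  have hc''0 : c'' ≠ 0 := by
    rintro rfl
    rw [hweq, map_zero, zero_mul] at hw0
    exact hw0 rfl
  have hz10 : O.Fr.symm z0 ≠ 0 := by
    intro h0
    rw [hweq, h0, zero_pow S0.prime.ne_zero, mul_zero] at hw0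
    exact hw0 rfl
  refine ⟨c''⁻¹, (O.Fr.symm z0)⁻¹, inv_ne_zero hc''0, inv_ne_zero hz10, ?_⟩
  have e5 : algebraMap L F0 c''⁻¹ * (O.Fr.symm z0)⁻¹ ^ p = (O.Fr.symm v)⁻¹ := by
    rw [hweq, mul_inv, map_inv₀, inv_pow]
  rw [e5]
  have h14 := (CongP.refl (ϖ := ϖ) (𝒪 := 𝒪0) 1 (O.Fr.symm v)⁻¹).mul S0 h12 hwO' hwO
  rwa [inv_mul_cancel₀ hw0] at h14

/-- Step 0: a killed class has depth `≥ 1`. -/
theorem Killed.dep_one (S0 : DepSetting ϖ 𝒪0 p e1 lam) (S : DepSetting ϖ 𝒪 p e1 lam) {u : F0}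
    (hu0 : u ≠ 0) (h : O.Killed u) : Dep L ϖ 𝒪0 p 1 u := by
  obtain ⟨n, u₁, hu₁, hu₁', hu⟩ := exists_zpow_mul_unit S0 hu0
  have hϖ0 : algebraMap R F0 ϖ ≠ 0 := S0.gauss.ne_zero
  have hϖL : algebraMap R L ϖ ≠ 0 := by
    intro h0
    apply hϖ0
    rw [IsScalarTower.algebraMap_apply R L F0, h0, map_zero]
  have hc : (algebraMap R L ϖ) ^ (-n) ≠ 0 := zpow_ne_zero _ hϖL
  have e : algebraMap L F0 ((algebraMap R L ϖ) ^ (-n)) * 1 ^ p * u = u₁ := by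
    rw [map_zpow₀, ← IsScalarTower.algebraMap_apply R L F0, one_pow, mul_one, hu, ← mul_assoc,
      ← zpow_add₀ hϖ0, neg_add_cancel, zpow_zero, one_mul]
  have hu₁0 : u₁ ≠ 0 := by
    rintro rfl
    rw [mul_zero] at hu
    exact hu0 hu
  have hk : O.Killed u₁ := by
    have := Killed.of_mul O h hc (one_ne_zero (α := F0))
    rwa [e] at this
  have hd := SZero_unit O S0 S hu₁0 hu₁ hu₁' hk
  rw [← e] at hd
  exact (dep_mul_iff 1 hc one_ne_zero u).1 hd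

end Fermat.Agent.S33.SM.Ops
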